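import Fermat.Agent.Classic.Level.Z3.Defs
import Fermat.Agent.Classic.Zeta.FE
import Fermat.Agent.LT.End.Main

/-!
# Weight one, character `χ₋₃`: everything about the form of S47 which the comparison needs
-/

set_option autoImplicit false

noncomputable section

open CongruenceSubgroup UpperHalfPlane Function EisensteinWeightOne Complex
open scoped MatrixGroups ModularForm ComplexConjugate

namespace Fermat.Agent.Classic.Z3

open Fermat.Agent.X1 Fermat.Agent.HeckePar ModularFormClass FLT.ExplicitLift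

local notation "Γℚ" => (AlgebraicClosure ℚ ≃ₐ[ℚ] AlgebraicClosure ℚ)

/-- (Z3.2) in the form of block Z4 -/
def FrickeFEStmt : Prop :=
  ∀ (N : ℕ) [NeZero N] (f h : CuspForm (Gamma1 N) 1), ⇑h = ⇑f ∣[(1 : ℤ)] W N →
    Zeta.FE (qCoeff ⇑f) (qCoeff ⇑h) N 0 1

/-- The form `f` of S47 (depleted, coefficients `ι (b n)`) and `h = f ∣ W_N`. -/
structure Pack (ρ : Γℚ →* GL (Fin 2) (ZMod 3)) (Ψ : GL (Fin 2) (ZMod 3) →* GL (Fin 2) (ℤ√(-2)))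
    (N : ℕ) [NeZero N] (ι : ℤ√(-2) →+* ℂ) (b : ℕ → ℤ√(-2)) (f h : CuspForm (Gamma1 N) 1) :
    Prop where
  three_dvd : 3 ∣ N
  sq_dvd : ∀ q : ℕ, q.Prime → q ∣ N → q ^ 2 ∣ N
  sys : FormalHecke.IsEigensystem
    (fun ℓ => if ℓ ∣ N then 0 else ((chiNegThree ℓ : ℤ) : ℤ√(-2))) b
  supp : ∀ n : ℕ, ¬ n.Coprime N → b n = 0
  coeff : ∀ n : ℕ, qCoeff ⇑f n = ι (b n)
  neb_f : HasNeb N f
  neb_h : HasNeb N h
  slash : ⇑h = ⇑f ∣[(1 : ℤ)] W N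
  slash' : ⇑f = (-(N : ℂ)) • (⇑h ∣[(1 : ℤ)] W N)
  trace : ∀ p : ℕ, p.Prime → ¬ p ∣ N → ∀ A : ValuationSubring (AlgebraicClosure ℚ),
    A.LiesOverPrime p → ∀ σ : Γℚ, A.IsFrobeniusAt σ p →
      b p = ((Ψ (ρ σ) : GL (Fin 2) (ℤ√(-2))) : Matrix (Fin 2) (Fin 2) (ℤ√(-2))).trace
  conj_b : ∀ n : ℕ, n.Coprime N → conj (ι (b n)) = ((chiNegThree n : ℤ) : ℂ) * ι (b n)
  /-- `T_p h = conj (b_p) h` -/
  hecke_h : ∀ p : ℕ, p.Prime → ¬ p ∣ N → ∀ n : ℕ,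
    qCoeff ⇑h (p * n) + ((chiNegThree p : ℤ) : ℂ) * (if p ∣ n then qCoeff ⇑h (n / p) else 0) =
      conj (ι (b p)) * qCoeff ⇑h n
  fe : Zeta.FE (qCoeff ⇑f) (qCoeff ⇑h) N 0 1

variable {ρ : Γℚ →* GL (Fin 2) (ZMod 3)} {Ψ : GL (Fin 2) (ZMod 3) →* GL (Fin 2) (ℤ√(-2))}

/-- `⟨p⟩ f = χ₋₃(p) f`. -/
theorem dCusp_of_hasNeb {N : ℕ} [NeZero N] (h3 : 3 ∣ N) {f : CuspForm (Gamma1 N) 1}
    (hf : HasNeb N f) {p : ℕ} (hp : p.Prime) (hpN : ¬ p ∣ N) :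
    dCusp N (Gamma1 N) 1 (pUnit N p) f = ((chiNegThree p : ℤ) : ℂ) • f := by
  have hc : p.Coprime N := (Nat.Prime.coprime_iff_not_dvd hp).mpr hpN
  apply DFunLike.coe_injective
  rw [coe_dCusp, FunLike.coe_smul]
  have h1 := hf (diaMat N (pUnit N p)) (diaMat_mem _)
  have h2 : chi3 (diaMat N (pUnit N p) 1 1) = chiNegThree p := by
    rw [← chi3_natCast]
    refine chi3_congr ?_
    have h5 : ((diaMat N (pUnit N p) 1 1 - (p : ℤ) : ℤ) : ZMod N) = 0 := by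
      push_cast
      rw [diaMat_11, coe_pUnit hc, sub_self]
    rw [ZMod.intCast_zmod_eq_zero_iff_dvd] at h5
    exact (by exact_mod_cast h3 : (3 : ℤ) ∣ (N : ℤ)).trans h5
  rw [h2] at h1
  exact h1

/-- The coefficients of `T_p f` for a form with nebentypus `χ₋₃`. -/
theorem qCoeff_tCusp_neb {N : ℕ} [NeZero N] (h3 : 3 ∣ N) {f : CuspForm (Gamma1 N) 1}
    (hf : HasNeb N f) (p : ℕ) [hp : Fact p.Prime] (hpN : ¬ p ∣ N) (n : ℕ) :
    qCoeff ⇑(tCusp N (Gamma1 N) 1 p f) n = qCoeff ⇑f (p * n) +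
      ((chiNegThree p : ℤ) : ℂ) * (if p ∣ n then qCoeff ⇑f (n / p) else 0) := by
  rw [qCoeff_tCusp (Gamma1 N) 1 p hpN f n, mul_comm n p, dCusp_of_hasNeb h3 hf hp.out hpN]
  congr 1
  split_ifs with h
  · rw [qCoeff_cusp_smul N (Gamma1 N) 1, sub_self, zpow_zero, one_mul]
  · rw [mul_zero]

/-- Hecke relations of a form with nebentypus and a `T_p`-eigenvalue, on coefficients. -/
theorem rel_of_tCusp {N : ℕ} [NeZero N] (h3 : 3 ∣ N) {f : CuspForm (Gamma1 N) 1}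
    (hf : HasNeb N f) (p : ℕ) [hp : Fact p.Prime] (hpN : ¬ p ∣ N) {t : ℂ}
    (ht : tCusp N (Gamma1 N) 1 p f = t • f) (n : ℕ) :
    qCoeff ⇑f (p * n) + ((chiNegThree p : ℤ) : ℂ) * (if p ∣ n then qCoeff ⇑f (n / p) else 0) =
      t * qCoeff ⇑f n := by
  rw [← qCoeff_tCusp_neb h3 hf p hpN n, ht, qCoeff_cusp_smul N (Gamma1 N) 1]

/-- The eigenvalue of `T_p` from the relations on coefficients. -/
theorem tCusp_of_rel {N : ℕ} [NeZero N] (h3 : 3 ∣ N) {f : CuspForm (Gamma1 N) 1}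
    (hf : HasNeb N f) (p : ℕ) [hp : Fact p.Prime] (hpN : ¬ p ∣ N) {t : ℂ}
    (h : ∀ n, qCoeff ⇑f (p * n) +
      ((chiNegThree p : ℤ) : ℂ) * (if p ∣ n then qCoeff ⇑f (n / p) else 0) = t * qCoeff ⇑f n) :
    tCusp N (Gamma1 N) 1 p f = t • f := by
  apply DFunLike.coe_injective
  refine (qGood_of_modularFormClass N (Gamma1 N) 1 (tCusp N (Gamma1 N) 1 p f)).ext
    (qGood_of_modularFormClass N (Gamma1 N) 1 (t • f)) fun n => ?_
  rw [qCoeff_tCusp_neb h3 hf p hpN n, h, qCoeff_cusp_smul N (Gamma1 N) 1]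

/-- The pack of a form with coefficients `ι (b n)`. -/
theorem pack_of (hFr : FrickeStmt) (hFE : FrickeFEStmt) (hConj : ConjStmt) (hρ : Continuous ρ)
    (hdet : ∀ σ, Matrix.GeneralLinearGroup.det (ρ σ) = WeierstrassCurve.modThreeCyclotomicChar σ)
    (hΨ : ∀ g, Matrix.GeneralLinearGroup.map red (Ψ g) = g) {N : ℕ} [hN : NeZero N]
    {ι : ℤ√(-2) →+* ℂ} {b : ℕ → ℤ√(-2)} {f : CuspForm (Gamma1 N) 1}
    (hsq : ∀ q : ℕ, q.Prime → q ∣ N → q ^ 2 ∣ N)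
    (hb : FormalHecke.IsEigensystem
      (fun ℓ => if ℓ ∣ N then 0 else ((chiNegThree ℓ : ℤ) : ℤ√(-2))) b)
    (hsupp : ∀ n : ℕ, ¬ n.Coprime N → b n = 0) (hf : ∀ n : ℕ, qCoeff ⇑f n = ι (b n))
    (htr : ∀ p : ℕ, p.Prime → ¬ p ∣ N → ∀ A : ValuationSubring (AlgebraicClosure ℚ),
      A.LiesOverPrime p → ∀ σ : Γℚ, A.IsFrobeniusAt σ p →
      b p = ((Ψ (ρ σ) : GL (Fin 2) (ℤ√(-2))) : Matrix (Fin 2) (Fin 2) (ℤ√(-2))).trace) :
    ∃ h : CuspForm (Gamma1 N) 1, Pack ρ Ψ N ι b f h := by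
  obtain ⟨h3, hneb⟩ := neb f ι b hf hb
  have hcj : ∀ n : ℕ, n.Coprime N → conj (ι (b n)) = ((chiNegThree n : ℤ) : ℂ) * ι (b n) :=
    hConj ρ hρ hdet Ψ hΨ N hN.out h3 b hb (fun p hp hp3 => htr p hp fun h => hp3 (h.mul_left 3)) ι
  obtain ⟨h, hh, hnebh, hinv, hT⟩ := hFr N f hneb
  refine ⟨h, h3, hsq, hb, hsupp, hf, hneb, hnebh, hh, hinv, htr, hcj, ?_, hFE N f h hh⟩
  intro p hp hpN
  have : Fact p.Prime := ⟨hp⟩
  have h1 : tCusp N (Gamma1 N) 1 p f = (ι (b p)) • f := by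
    refine tCusp_of_rel h3 hneb p hpN fun n => ?_
    have h2 := congrArg ι (hb.2 p hp n)
    simp only [if_neg hpN] at h2
    rw [map_add, map_mul, map_mul, map_intCast] at h2
    rw [hf (p * n), hf n, ← h2]
    congr 2
    split_ifs with h
    · rw [hf]
    · rw [map_zero]
  have h2 := hT p hpN _ h1
  rw [← hcj p ((Nat.Prime.coprime_iff_not_dvd hp).mpr hpN)] at h2
  exact rel_of_tCusp h3 hnebh p hpN h2

/-- **The form of S47, at a level divisible by `R`.** -/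
theorem exists_pack (hFr : FrickeStmt) (hFE : FrickeFEStmt) (hDep : DepleteStmt)
    (hConj : ConjStmt) (hρ : Continuous ρ)
    (hdet : ∀ σ, Matrix.GeneralLinearGroup.det (ρ σ) = WeierstrassCurve.modThreeCyclotomicChar σ)
    (hΨ : ∀ g, Matrix.GeneralLinearGroup.map red (Ψ g) = g)
    (hC : LT.End.Concl47 ρ Ψ) {R : ℕ} (hR : R ≠ 0) :
    ∃ (N : ℕ) (_ : NeZero N) (ι : ℤ√(-2) →+* ℂ) (b : ℕ → ℤ√(-2)) (f h : CuspForm (Gamma1 N) 1),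
      R ∣ N ∧ Pack ρ Ψ N ι b f h := by
  obtain ⟨N₀, hN₀, b₀, hb₀, hr₀, ht₀⟩ := hC
  obtain ⟨N, hN, hN₀N, hRN, -, hsq, hb, ι, f, hf⟩ := hDep N₀ R hR b₀ hb₀ hr₀
  obtain ⟨h, hh⟩ := pack_of hFr hFE hConj hρ hdet hΨ hsq hb (fun n hn => if_neg hn) hf (by
    intro p hp hpN A hA σ hσ
    have h1 : p.Coprime N := (Nat.Prime.coprime_iff_not_dvd hp).mpr hpN
    simp only [if_pos h1]
    refine ht₀ p hp (fun h => ?_) A hA σ hσ
    rcases hp.dvd_mul.mp h with h | h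
    · exact hpN (h.trans (neb f ι _ hf hb).1)
    · exact hpN (h.trans hN₀N))
  exact ⟨N, hN, ι, _, f, h, hRN, hh⟩

/-- **Lowering the level**, the same `f` and `b`. -/
theorem Pack.lower (hFr : FrickeStmt) (hFE : FrickeFEStmt) (hConj : ConjStmt) (hLow : LowerStmt)
    (hρ : Continuous ρ)
    (hdet : ∀ σ, Matrix.GeneralLinearGroup.det (ρ σ) = WeierstrassCurve.modThreeCyclotomicChar σ)
    (hΨ : ∀ g, Matrix.GeneralLinearGroup.map red (Ψ g) = g) {N N₁ D : ℕ} [NeZero N]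
    [NeZero N₁] {ι : ℤ√(-2) →+* ℂ} {b : ℕ → ℤ√(-2)} {f h : CuspForm (Gamma1 N) 1}
    (hP : Pack ρ Ψ N ι b f h) (hN : N = D * N₁) (hN₁ : ∀ q : ℕ, q.Prime → q ∣ N → q ^ 2 ∣ N₁)
    (hs : ∀ n, qCoeff ⇑h n ≠ 0 → D ∣ n) :
    ∃ f₁ h₁ : CuspForm (Gamma1 N₁) 1, ⇑f₁ = ⇑f ∧ Pack ρ Ψ N₁ ι b f₁ h₁ := by
  have hdvd : N₁ ∣ N := ⟨D, by rw [hN, mul_comm]⟩
  have hprime : ∀ q : ℕ, q.Prime → (q ∣ N₁ ↔ q ∣ N) := fun q hq =>
    ⟨fun h => h.trans hdvd, fun h => (dvd_pow_self q two_ne_zero).trans (hN₁ q hq h)⟩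
  have hcop : ∀ n : ℕ, n.Coprime N₁ ↔ n.Coprime N := by
    intro n
    constructor
    · intro h
      refine Nat.coprime_of_dvd fun q hq h1 h2 => ?_
      exact Nat.not_coprime_of_dvd_of_dvd hq.one_lt h1 ((hprime q hq).mpr h2) h
    · intro h
      exact Nat.Coprime.coprime_dvd_right hdvd h
  obtain ⟨f₁, -, hf₁, -, -, -⟩ := hLow N N₁ D hN
    ((hprime 3 Nat.prime_three).mpr hP.three_dvd)
    (fun q hq hqD => (hprime q hq).mpr (hqD.trans ⟨N₁, hN⟩)) f h hP.neb_h hP.slash' hs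
  obtain ⟨h₁, hh₁⟩ := pack_of (N := N₁) (ι := ι) (b := b) (f := f₁) hFr hFE hConj hρ hdet hΨ
    (fun q hq h => hN₁ q hq ((hprime q hq).mp h)) (by
      refine ⟨hP.sys.1, fun ℓ hℓ n => ?_⟩
      have h1 := hP.sys.2 ℓ hℓ n
      simp only [hprime ℓ hℓ]
      exact h1)
    (fun n hn => hP.supp n fun h => hn ((hcop n).mpr h)) (fun n => by rw [hf₁, hP.coeff])
    (fun p hp hpN => hP.trace p hp fun h => hpN ((hprime p hp).mpr h))
  exact ⟨f₁, h₁, hf₁, hh₁⟩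

/-- **`U_q h`** for `q² ∣ N` (used at `q = 3`): a form of level `N / q` with the same eigenvalues
outside `N`. -/
theorem Pack.exists_uq (hU : UqStmt) {N q : ℕ} [NeZero N] [NeZero (N / q)] [hq : Fact q.Prime]
    {ι : ℤ√(-2) →+* ℂ} {b : ℕ → ℤ√(-2)} {f h : CuspForm (Gamma1 N) 1}
    (hP : Pack ρ Ψ N ι b f h) (hqN : q ^ 2 ∣ N) (h3 : 3 ∣ N / q) :
    ∃ g : CuspForm (Gamma1 (N / q)) 1, HasNeb (N / q) g ∧
      (∀ n, qCoeff ⇑g n = qCoeff ⇑h (q * n)) ∧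
      ∀ p : ℕ, p.Prime → ¬ p ∣ N / q → ∀ n : ℕ,
        qCoeff ⇑g (p * n) + ((chiNegThree p : ℤ) : ℂ) * (if p ∣ n then qCoeff ⇑g (n / p) else 0) =
          conj (ι (b p)) * qCoeff ⇑g n := by
  obtain ⟨g, hg, hgc⟩ := hU N q hqN h3 h hP.neb_h
  refine ⟨g, hg, hgc, fun p hp hpN n => ?_⟩
  have hqN' : q ∣ N := (dvd_pow_self q two_ne_zero).trans hqN
  have hpq : p ≠ q := by
    rintro rfl
    obtain ⟨m, hm⟩ := hqN
    refine hpN ⟨m, ?_⟩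
    rw [hm, pow_two, mul_assoc, Nat.mul_div_cancel_left _ hq.out.pos]
  have hpN' : ¬ p ∣ N := by
    intro h
    rw [← Nat.mul_div_cancel' hqN'] at h
    rcases hp.dvd_mul.mp h with h | h
    · exact hpq ((Nat.prime_dvd_prime_iff_eq hp hq.out).mp h)
    · exact hpN h
  have hcop : p.Coprime q := (Nat.coprime_primes hp hq.out).mpr hpq
  have h1 := hP.hecke_h p hp hpN' (q * n)
  rw [hgc (p * n), hgc n, ← h1]
  have e1 : q * (p * n) = p * (q * n) := by ring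
  rw [e1]
  congr 2
  by_cases h2 : p ∣ n
  · rw [if_pos h2, if_pos (h2.mul_left q), hgc, Nat.mul_div_assoc q h2]
  · rw [if_neg h2, if_neg fun h => h2 (hcop.dvd_of_dvd_mul_left h)]

end Fermat.Agent.Classic.Z3

end
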