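import Fermat.Agent.Classic.Level.Z3.Defs

/-!
# Block Z3, starting point: depletion of a weight one system with character `χ₋₃`

`depleteStmt : DepleteStmt`: the system `b` of level `N`, depleted at all primes of `N * R`, is
again an eigensystem and is realized at a level `M` divisible by `N`, by `R` and by the squares of
its primes, with no prime factors outside `N * R`. (Z3d, helper73)
-/

set_option autoImplicit false

noncomputable section

open CongruenceSubgroup UpperHalfPlane Function EisensteinWeightOne Complex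
open scoped MatrixGroups ModularForm

namespace Fermat.Agent.Classic.Z3

open Fermat.Agent.X1 Fermat.Agent.HeckePar ModularFormClass

/-- Depletion keeps the Hecke relations (with `e ℓ = 0` at the primes of the new level). -/
theorem isEigensystem_deplete {A : Type*} [CommRing A] {N M : ℕ} (hNM : N ∣ M) {e b : ℕ → A}
    (hb : FormalHecke.IsEigensystem (fun ℓ => if ℓ ∣ N then 0 else e ℓ) b) :
    FormalHecke.IsEigensystem (fun ℓ => if ℓ ∣ M then 0 else e ℓ)
      (fun n => if n.Coprime M then b n else 0) := by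
  refine ⟨?_, fun ℓ hℓ n => ?_⟩
  · simp only [Nat.coprime_one_left_iff, if_true]
    exact hb.1
  · by_cases hM : ℓ ∣ M
    · have h1 : ¬ ℓ.Coprime M := fun h => hℓ.one_lt.ne' (Nat.eq_one_of_dvd_coprimes h dvd_rfl hM)
      have h2 : ¬ (ℓ * n).Coprime M := fun h => h1 (Nat.Coprime.coprime_dvd_left
        (Dvd.intro _ rfl) h)
      simp only [if_pos hM, if_neg h1, if_neg h2, zero_mul, add_zero]
    · have h1 : ℓ.Coprime M := (Nat.Prime.coprime_iff_not_dvd hℓ).mpr hM
      have hN : ¬ ℓ ∣ N := fun h => hM (h.trans hNM)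
      have h2 := hb.2 ℓ hℓ n
      simp only [if_neg hN] at h2
      simp only [if_neg hM, if_pos h1]
      by_cases hn : n.Coprime M
      · have h3 : (ℓ * n).Coprime M := h1.mul_left hn
        rw [if_pos h3, if_pos hn, ← h2]
        congr 2
        split_ifs with h4 h5
        · rfl
        · exact absurd (Nat.Coprime.coprime_dvd_left (Nat.div_dvd_of_dvd h4) hn) h5
        · rfl
      · have h3 : ¬ (ℓ * n).Coprime M := fun h => hn (Nat.Coprime.coprime_dvd_left
          (Dvd.intro_left _ rfl) h)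
        rw [if_neg h3, if_neg hn, mul_zero, zero_add]
        split_ifs with h4 h5
        · exfalso
          apply hn
          rw [← Nat.mul_div_cancel' h4]
          exact h1.mul_left h5
        · rw [mul_zero]
        · rw [mul_zero]

/-- **Z3d.** -/
theorem depleteStmt : DepleteStmt := by
  intro N R _ hR b hb hreal
  obtain ⟨ι, f, hf⟩ := hreal
  have hN0 : N ≠ 0 := NeZero.ne N
  obtain ⟨M₀, hM₀, hNM₀, hS, hP, g, hg⟩ := LT.End.exists_deplete (N * R).primeFactors
    (fun r hr => Nat.prime_of_mem_primeFactors hr) N f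
  have hM₀0 : M₀ ≠ 0 := NeZero.ne M₀
  have hM0 : (M₀ * R) ^ 2 ≠ 0 := pow_ne_zero _ (mul_ne_zero hM₀0 hR)
  have hdvd : M₀ ∣ (M₀ * R) ^ 2 := (dvd_mul_right M₀ R).trans (dvd_pow_self _ two_ne_zero)
  -- the primes of `M`
  have hpr : ∀ q : ℕ, q.Prime → (q ∣ (M₀ * R) ^ 2 ↔ q ∈ (N * R).primeFactors) := by
    intro q hq
    constructor
    · intro h
      rw [Nat.mem_primeFactors]
      refine ⟨hq, ?_, mul_ne_zero hN0 hR⟩
      rcases hq.dvd_mul.mp (hq.dvd_of_dvd_pow h) with h1 | h1
      · rcases hP q hq h1 with h2 | h2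
        · exact h2.mul_right R
        · exact Nat.dvd_of_mem_primeFactors h2
      · exact h1.mul_left N
    · exact fun h => (hS q h).trans hdvd
  have hcop : ∀ n : ℕ, (∃ r ∈ (N * R).primeFactors, r ∣ n) ↔ ¬ n.Coprime ((M₀ * R) ^ 2) := by
    intro n
    rw [Nat.Prime.not_coprime_iff_dvd]
    constructor
    · rintro ⟨r, hr, hrn⟩
      have hrp := Nat.prime_of_mem_primeFactors hr
      exact ⟨r, hrp, hrn, (hpr r hrp).mpr hr⟩
    · rintro ⟨r, hrp, hrn, hrM⟩
      exact ⟨r, (hpr r hrp).mp hrM, hrn⟩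
  refine ⟨(M₀ * R) ^ 2, ⟨hM0⟩, hNM₀.trans hdvd, ?_, ?_, ?_, ?_, ?_⟩
  · exact (dvd_mul_left R M₀).trans (dvd_pow_self _ two_ne_zero)
  · exact fun q hq h => Nat.dvd_of_mem_primeFactors ((hpr q hq).mp h)
  · exact fun q hq h => pow_dvd_pow_of_dvd (hq.dvd_of_dvd_pow h) 2
  · exact isEigensystem_deplete (e := fun ℓ => ((chiNegThree ℓ : ℤ) : ℤ√(-2)))
      (hNM₀.trans hdvd) hb
  · refine ⟨ι, LT.End.restr1 hdvd g, fun n => ?_⟩
    rw [LT.End.coe_restr1, hg n, hf n]
    show _ = ι (if n.Coprime ((M₀ * R) ^ 2) then b n else 0)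
    by_cases h : ∃ r ∈ (N * R).primeFactors, r ∣ n
    · rw [if_pos h, if_neg ((hcop n).mp h), map_zero]
    · rw [if_neg h, if_pos (not_not.mp fun h1 => h ((hcop n).mpr h1))]

end Fermat.Agent.Classic.Z3

end
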