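import Fermat.Agent.Classic.Level.Z3.Defs
import Fermat.Agent.LT.End.Galois
import Fermat.Agent.Frob.Exists

/-!
# Complex conjugation on the octahedral eigensystem (Z3.6, helper53)

`conj (ι b_n) = χ₋₃(n) ι b_n` for `n` prime to the level: the complex conjugate of the character of a
lift of `GL₂(𝔽₃)` is its twist by the determinant.
-/

set_option autoImplicit false

noncomputable section

open Matrix WeierstrassCurve FLT.ExplicitLift EisensteinWeightOne Complex
open scoped ComplexConjugate

namespace Fermat.Agent.Classic.Z3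

open Fermat.Agent.LT.End

/-- A complex number with square `-2` is purely imaginary. -/
theorem conj_eq_neg_of_sq {z : ℂ} (h : z ^ 2 = -2) : conj z = -z := by
  have hre : z.re * z.re - z.im * z.im = -2 := by
    have := congrArg Complex.re h
    simpa [pow_two] using this
  have him : z.re * z.im = 0 := by
    have := congrArg Complex.im h
    simp [pow_two] at this
    linarith
  have hz0 : z.re = 0 := by
    rcases mul_eq_zero.mp him with h | h
    · exact h
    · rw [h, mul_zero, sub_zero] at hre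
      nlinarith [mul_self_nonneg z.re]
  exact Complex.ext (by simp [hz0]) (by simp)

section

variable {S : GL (Fin 2) (ZMod 3) →* GL (Fin 2) ℂ} (hS : S (-1) = -1)

include hS

theorem conj_tr_of_det_one (g : GL (Fin 2) (ZMod 3)) (hd : g.1.det = 1) :
    conj (tr S g) = tr S g := by
  rcases fin5 g.1.trace with ht | ht | ht
  · rw [tr_of_trace_zero hS g ht, map_zero]
  · by_cases h1 : -g = 1
    · have h2 : g = -1 := by rw [← neg_neg g, h1]
      rw [h2, tr_neg hS, tr_one, _root_.map_neg, map_ofNat]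
    · have h2 : (-g : GL (Fin 2) (ZMod 3)).1.trace = -1 := by
        rw [val_neg, Matrix.trace_neg, ht]
      have h3 : (-g : GL (Fin 2) (ZMod 3)).1.det = 1 := by
        rw [val_neg, Matrix.det_neg, Fintype.card_fin, hd]; norm_num
      have h4 := (tr_dt_of_order_three hS (-g) h2 h3 h1).1
      rw [tr_neg hS, neg_inj] at h4
      rw [h4, map_one]
  · by_cases h1 : g = 1
    · rw [h1, tr_one, map_ofNat]
    · rw [(tr_dt_of_order_three hS g ht hd h1).1, _root_.map_neg, map_one]

theorem conj_tr_of_det_neg_one (g : GL (Fin 2) (ZMod 3)) (hd : g.1.det = -1) :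
    conj (tr S g) = -tr S g := by
  by_cases ht : g.1.trace = 0
  · rw [tr_of_trace_zero hS g ht, map_zero, neg_zero]
  · exact conj_eq_neg_of_sq (tr_sq hS g ht hd)

end

theorem chiNegThree_mul (m n : ℕ) : chiNegThree (m * n) = chiNegThree m * chiNegThree n := by
  rw [← chi3_natCast, ← chi3_natCast, ← chi3_natCast, Nat.cast_mul, chi3_mul]

theorem chiNegThree_mul_self {n : ℕ} (h : ¬ 3 ∣ n) : chiNegThree n * chiNegThree n = 1 := by
  rw [← chi3_natCast]
  exact chi3_mul_self (by exact_mod_cast h)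

/-- the relation at the primes -/
theorem conj_prime {ρ : (AlgebraicClosure ℚ ≃ₐ[ℚ] AlgebraicClosure ℚ) →* GL (Fin 2) (ZMod 3)}
    (hdet : ∀ σ, Matrix.GeneralLinearGroup.det (ρ σ) = modThreeCyclotomicChar σ)
    {Ψ : GL (Fin 2) (ZMod 3) →* GL (Fin 2) (ℤ√(-2))}
    (hΨ : ∀ g, Matrix.GeneralLinearGroup.map red (Ψ g) = g) (ι : ℤ√(-2) →+* ℂ)
    {p : ℕ} (hp : p.Prime) (hp3 : p ≠ 3) {A : ValuationSubring (AlgebraicClosure ℚ)}
    (hA : A.LiesOverPrime p) {σ : AlgebraicClosure ℚ ≃ₐ[ℚ] AlgebraicClosure ℚ}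
    (hσ : A.IsFrobeniusAt σ p) :
    conj (ι ((Ψ (ρ σ) : GL (Fin 2) (ℤ√(-2))) : Matrix (Fin 2) (Fin 2) (ℤ√(-2))).trace) =
      ((chiNegThree p : ℤ) : ℂ) *
        ι ((Ψ (ρ σ) : GL (Fin 2) (ℤ√(-2))) : Matrix (Fin 2) (Fin 2) (ℤ√(-2))).trace := by
  have h1 : (ρ σ).1.det = (p : ZMod 3) := by
    have h2 := congrArg (fun u : (ZMod 3)ˣ => (u : ZMod 3)) (hdet σ)
    simp only [modThree_frobenius hp hp3 hA hσ] at h2
    exact h2
  have hS := rep_neg_one Ψ hΨ ι
  rw [← tr_rep]
  have h3 : p % 3 = 1 ∨ p % 3 = 2 := by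
    have h4 : ¬ 3 ∣ p := fun h => hp3 (((Nat.prime_dvd_prime_iff_eq Nat.prime_three hp).mp h).symm)
    omega
  rcases h3 with h3 | h3
  · have h5 : (ρ σ).1.det = 1 := by
      rw [h1, ← ZMod.natCast_mod, h3, Nat.cast_one]
    have h6 : chiNegThree p = 1 := by
      unfold chiNegThree
      rw [if_pos h3]
    rw [conj_tr_of_det_one hS _ h5, h6, Int.cast_one, one_mul]
  · have h5 : (ρ σ).1.det = -1 := by
      rw [h1, ← ZMod.natCast_mod, h3]
      decide
    have h6 : chiNegThree p = -1 := by
      unfold chiNegThree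
      rw [if_neg (by omega), if_pos h3]
    rw [conj_tr_of_det_neg_one hS _ h5, h6, Int.cast_neg, Int.cast_one, neg_one_mul]

/-- from the primes to all integers prime to the level -/
theorem conj_of_primes {N : ℕ} (h3 : 3 ∣ N) {b : ℕ → ℤ√(-2)}
    (he : FormalHecke.IsEigensystem
      (fun ℓ => if ℓ ∣ N then 0 else ((chiNegThree ℓ : ℤ) : ℤ√(-2))) b) (ι : ℤ√(-2) →+* ℂ)
    (hprime : ∀ p : ℕ, p.Prime → ¬ p ∣ N →
      conj (ι (b p)) = ((chiNegThree p : ℤ) : ℂ) * ι (b p)) (n : ℕ) (hn : n.Coprime N) :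
    conj (ι (b n)) = ((chiNegThree n : ℤ) : ℂ) * ι (b n) := by
  induction n using Nat.strong_induction_on with
  | _ n ih =>
    rcases Nat.lt_trichotomy n 1 with h | h | h
    · have h0 : n = 0 := by omega
      subst h0
      rw [Nat.coprime_zero_left] at hn
      rw [hn] at h3
      exact absurd (Nat.le_of_dvd one_pos h3) (by norm_num)
    · subst h
      have h1 : chiNegThree 1 = 1 := by decide
      rw [he.1, map_one, map_one, h1, Int.cast_one, one_mul]
    · obtain ⟨p, hp, m, rfl⟩ := Nat.exists_prime_and_dvd h.ne'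
      have hpN : ¬ p ∣ N := fun h1 => by
        have h2 := Nat.Coprime.coprime_dvd_left (Dvd.intro m rfl) hn
        exact (hp.coprime_iff_not_dvd.mp h2) h1
      have hp3 : ¬ 3 ∣ p := fun h1 => hpN
        (((Nat.prime_dvd_prime_iff_eq Nat.prime_three hp).mp h1) ▸ h3)
      have hm : m.Coprime N := Nat.Coprime.coprime_dvd_left (Dvd.intro_left p rfl) hn
      have hm0 : m ≠ 0 := by
        rintro rfl
        simp at h
      have hpm : m < p * m := by
        have := hp.two_le
        nlinarith [Nat.pos_of_ne_zero hm0]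
      have h1 := congrArg ι (he.2 p hp m)
      simp only [if_neg hpN] at h1
      rw [map_add, map_mul, map_mul, map_intCast] at h1
      have h2 : ι (b (p * m)) = ι (b p) * ι (b m) -
          ((chiNegThree p : ℤ) : ℂ) * ι (if p ∣ m then b (m / p) else 0) := by
        linear_combination h1
      have hχ := chiNegThree_mul_self hp3
      have hχ' : ((chiNegThree p : ℤ) : ℂ) * ((chiNegThree p : ℤ) : ℂ) = 1 := by
        exact_mod_cast hχ
      rw [h2, map_sub, map_mul, map_mul, hprime p hp hpN, ih m hpm hm, chiNegThree_mul,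
        Int.cast_mul]
      have hint : conj ((chiNegThree p : ℤ) : ℂ) = ((chiNegThree p : ℤ) : ℂ) :=
        map_intCast (starRingEnd ℂ) _
      rw [hint]
      by_cases hd : p ∣ m
      · obtain ⟨k, rfl⟩ := hd
        have hk : k.Coprime N := Nat.Coprime.coprime_dvd_left (Dvd.intro_left p rfl) hm
        have hk0 : k ≠ 0 := by
          rintro rfl
          exact hm0 (mul_zero p)
        have hlt : k < p * (p * k) := by
          have h5 := hp.two_le
          have h6 := Nat.pos_of_ne_zero hk0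
          have h7 : k < p * k := by nlinarith
          exact h7.trans hpm
        rw [if_pos (Dvd.intro k rfl), Nat.mul_div_cancel_left k hp.pos, ih k hlt hk,
          chiNegThree_mul p k, Int.cast_mul]
        linear_combination (((chiNegThree p : ℤ) : ℂ) * ((chiNegThree k : ℤ) : ℂ) * ι (b k)) * hχ'
      · rw [if_neg hd, map_zero, map_zero]
        ring

/-- **`conj (ι b_n) = χ₋₃(n) ι b_n`.** -/
theorem conjStmt : ConjStmt := by
  intro ρ _ hdet Ψ hΨ N _ h3 b he htr ι n hn
  refine conj_of_primes h3 he ι (fun p hp hpN => ?_) n hn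
  have hp3 : p ≠ 3 := fun h => hpN (h ▸ h3)
  have hp3N : ¬ p ∣ 3 * N := by
    rw [hp.dvd_mul]
    rintro (h | h)
    · exact hp3 ((Nat.prime_dvd_prime_iff_eq hp Nat.prime_three).mp h)
    · exact hpN h
  obtain ⟨A, hA, σ, hσ⟩ := Frob.exists_frobenius p hp
  rw [htr p hp hp3N A hA σ hσ]
  exact conj_prime hdet hΨ ι hp hp3 hA hσ

end Fermat.Agent.Classic.Z3

end
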