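import Fermat.Agent.Classic.Neb
import Fermat.Agent.LT.End.Deplete
import Fermat.Prelude.Def_GaloisRep_ModThreeCyclotomic

/-!
# Weight one, character `χ₋₃`: the Fricke involution and the Mellin transform (block Z3, statements)

`HasNeb N f`      : `f ∣ g = χ₋₃(g₁₁) f` for `g ∈ Γ₀(N)`.
`W N`             : the matrix `(0 -1; N 0)`.
The propositions `...Stmt` are the junctions of the block; each of them is proved in its own file.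
-/

set_option autoImplicit false

noncomputable section

open CongruenceSubgroup UpperHalfPlane Function EisensteinWeightOne Complex
open scoped MatrixGroups ModularForm ComplexConjugate

namespace Fermat.Agent.Classic.Z3

open Fermat.Agent.X1 Fermat.Agent.HeckePar ModularFormClass

/-- nebentypus `χ₋₃` -/
def HasNeb (N : ℕ) (f : CuspForm (Gamma1 N) 1) : Prop :=
  ∀ g ∈ Gamma0 N, ⇑f ∣[(1 : ℤ)] g = ((chi3 (g 1 1) : ℤ) : ℂ) • ⇑f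

/-- the matrix `(0 -1; N 0)` -/
def W (N : ℕ) [NeZero N] : GL (Fin 2) ℝ :=
  Matrix.GeneralLinearGroup.mkOfDetNeZero !![0, -1; (N : ℝ), 0] (by
    rw [Matrix.det_fin_two_of]
    simpa using NeZero.ne N)

theorem W_val (N : ℕ) [NeZero N] : (W N).val = !![0, -1; (N : ℝ), 0] := rfl

/-- `n` has only prime factors of `N` -/
def Smooth (N n : ℕ) : Prop := ∀ p : ℕ, p.Prime → p ∣ n → p ∣ N

/-- (Z3.1, helper41) the Fricke involution -/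
def FrickeStmt : Prop :=
  ∀ (N : ℕ) [NeZero N] (f : CuspForm (Gamma1 N) 1), HasNeb N f →
    ∃ h : CuspForm (Gamma1 N) 1, ⇑h = ⇑f ∣[(1 : ℤ)] W N ∧ HasNeb N h ∧
      ⇑f = (-(N : ℂ)) • (⇑h ∣[(1 : ℤ)] W N) ∧
      ∀ (p : ℕ) [Fact p.Prime], ¬ p ∣ N → ∀ t : ℂ, tCusp N (Gamma1 N) 1 p f = t • f →
        tCusp N (Gamma1 N) 1 p h = (((chiNegThree p : ℤ) : ℂ) * t) • h

/-- (Z3.2, helper46) the Mellin transforms of `f` and `h = f ∣ W_N`: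
`F = N^{s/2} Γ_ℂ(s) L(s, f)`, `H = N^{s/2} Γ_ℂ(s) L(s, h)`, `F(1 - s) = κ H(s)` -/
def MellinStmt : Prop :=
  ∀ (N : ℕ) [NeZero N] (f h : CuspForm (Gamma1 N) 1), ⇑h = ⇑f ∣[(1 : ℤ)] W N →
    ∃ (F H : ℂ → ℂ) (κ : ℂ), κ ≠ 0 ∧ Differentiable ℂ F ∧ Differentiable ℂ H ∧
      (∀ s, F (1 - s) = κ * H s) ∧
      (∀ s : ℂ, 2 < s.re → LSeriesSummable (qCoeff ⇑f) s ∧
        F s = (N : ℂ) ^ (s / 2) * Gammaℂ s * LSeries (qCoeff ⇑f) s) ∧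
      ∀ s : ℂ, 2 < s.re → LSeriesSummable (qCoeff ⇑h) s ∧
        H s = (N : ℂ) ^ (s / 2) * Gammaℂ s * LSeries (qCoeff ⇑h) s

/-- (Z3.3, helper96) pure arithmetic: `c` and `a` satisfy the same recursion at the primes
`p ∤ N`, `a` is normalised and supported on numbers prime to `N`, then
`c(mn) = c(m) a(n)` (`m` smooth, `n` prime to `N`) and `L(c) = L(P) L(a)`, `P` the smooth part. -/
def CoeffStmt : Prop :=
  ∀ (N : ℕ), N ≠ 0 → ∀ (e c a : ℕ → ℂ), c 0 = 0 → a 1 = 1 → (∀ n, ¬ n.Coprime N → a n = 0) →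
    (∀ p : ℕ, p.Prime → ¬ p ∣ N → ∀ n, a (p * n) + e p * (if p ∣ n then a (n / p) else 0) =
      a p * a n) →
    (∀ p : ℕ, p.Prime → ¬ p ∣ N → ∀ n, c (p * n) + e p * (if p ∣ n then c (n / p) else 0) =
      a p * c n) →
    ∃ P : ℕ → ℂ, (∀ n, Smooth N n → P n = c n) ∧ (∀ n, P n ≠ 0 → n ≠ 0 ∧ Smooth N n) ∧
      (∀ m n, m ≠ 0 → Smooth N m → n.Coprime N → c (m * n) = P m * a n) ∧
      ∀ s : ℂ, LSeriesSummable a s → LSeriesSummable c s →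
        LSeriesSummable P s ∧ LSeries c s = LSeries P s * LSeries a s

/-- (Z3.4, helper49) lowering the level: `h(z) = h'(Dz)` and `f = const · h' ∣ W_{N₁}`. -/
def LowerStmt : Prop :=
  ∀ (N N₁ D : ℕ) [NeZero N] [NeZero N₁], N = D * N₁ → 3 ∣ N₁ →
    (∀ q : ℕ, q.Prime → q ∣ D → q ∣ N₁) → ∀ (f h : CuspForm (Gamma1 N) 1), HasNeb N h →
    ⇑f = (-(N : ℂ)) • (⇑h ∣[(1 : ℤ)] W N) → (∀ n, qCoeff ⇑h n ≠ 0 → D ∣ n) →
    ∃ f₁ h₁ : CuspForm (Gamma1 N₁) 1, ⇑f₁ = ⇑f ∧ HasNeb N₁ f₁ ∧ HasNeb N₁ h₁ ∧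
      ∀ n, qCoeff ⇑h₁ n = qCoeff ⇑h (D * n)

/-- (Z3.5, helper73) starting point: the system of S47 at a level divisible by the squares of its
primes and by a given number, depleted. -/
def DepleteStmt : Prop :=
  ∀ (N R : ℕ) [NeZero N], R ≠ 0 → ∀ (b : ℕ → ℤ√(-2)),
    FormalHecke.IsEigensystem (fun ℓ => if ℓ ∣ N then 0 else ((chiNegThree ℓ : ℤ) : ℤ√(-2))) b →
    CuspForm.IsWeightOneChiNegThreeRealized N b →
    ∃ (M : ℕ) (_ : NeZero M), N ∣ M ∧ R ∣ M ∧ (∀ q : ℕ, q.Prime → q ∣ M → q ∣ N * R) ∧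
      (∀ q : ℕ, q.Prime → q ∣ M → q ^ 2 ∣ M) ∧
      FormalHecke.IsEigensystem (fun ℓ => if ℓ ∣ M then 0 else ((chiNegThree ℓ : ℤ) : ℤ√(-2)))
        (fun n => if n.Coprime M then b n else 0) ∧
      CuspForm.IsWeightOneChiNegThreeRealized M (fun n => if n.Coprime M then b n else 0)

/-- (Z3.6, helper53) `conj (ι b_n) = χ₋₃(n) ι b_n` for `n` prime to `N`, from the traces. -/
def ConjStmt : Prop :=
  ∀ (ρ : (AlgebraicClosure ℚ ≃ₐ[ℚ] AlgebraicClosure ℚ) →* GL (Fin 2) (ZMod 3)),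
    Continuous ρ →
    (∀ σ, Matrix.GeneralLinearGroup.det (ρ σ) = WeierstrassCurve.modThreeCyclotomicChar σ) →
    ∀ (Ψ : GL (Fin 2) (ZMod 3) →* GL (Fin 2) (ℤ√(-2))),
    (∀ g, Matrix.GeneralLinearGroup.map FLT.ExplicitLift.red (Ψ g) = g) →
    ∀ (N : ℕ), N ≠ 0 → 3 ∣ N → ∀ (b : ℕ → ℤ√(-2)),
    FormalHecke.IsEigensystem (fun ℓ => if ℓ ∣ N then 0 else ((chiNegThree ℓ : ℤ) : ℤ√(-2))) b →
    (∀ p : ℕ, p.Prime → ¬ p ∣ 3 * N →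
      ∀ A : ValuationSubring (AlgebraicClosure ℚ), A.LiesOverPrime p →
        ∀ σ : AlgebraicClosure ℚ ≃ₐ[ℚ] AlgebraicClosure ℚ, A.IsFrobeniusAt σ p →
          b p = ((Ψ (ρ σ) : GL (Fin 2) (ℤ√(-2))) : Matrix (Fin 2) (Fin 2) (ℤ√(-2))).trace) →
    ∀ (ι : ℤ√(-2) →+* ℂ) (n : ℕ), n.Coprime N →
      conj (ι (b n)) = ((chiNegThree n : ℤ) : ℂ) * ι (b n)

/-- (Z3.7, helper63 if he agrees) `U_q` lowers the level when `q² ∣ N`. -/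
def UqStmt : Prop :=
  ∀ (N q : ℕ) [NeZero N] [NeZero (N / q)] [Fact q.Prime], q ^ 2 ∣ N → 3 ∣ N / q →
    ∀ h : CuspForm (Gamma1 N) 1, HasNeb N h →
    ∃ h₁ : CuspForm (Gamma1 (N / q)) 1, HasNeb (N / q) h₁ ∧
      ∀ n, qCoeff ⇑h₁ n = qCoeff ⇑h (q * n)

end Fermat.Agent.Classic.Z3

end
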