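import Fermat.Agent.Classic.Level.Lower
import Fermat.Agent.Classic.Level.Z3.Defs

/-!
# Lowering the level (Z3c)
-/

set_option autoImplicit false

noncomputable section

open CongruenceSubgroup UpperHalfPlane ModularFormClass
open scoped MatrixGroups ModularForm

namespace Fermat.Agent.Classic.Z3

open Fermat.Agent.Classic.Lvl1 Fermat.Agent.X1

variable {N N₁ D : ℕ}

theorem slash_gamma1 (h3 : 3 ∣ N₁) {u : ℍ → ℂ}
    (hu : ∀ g ∈ Gamma0 N₁, u ∣[(1 : ℤ)] g = chC g • u) {g : SL(2, ℤ)} (hg : g ∈ Gamma1 N₁) :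
    u ∣[(1 : ℤ)] g = u := by
  rw [hu g (Gamma1_in_Gamma0 N₁ hg)]
  have h6 := (Gamma1_mem N₁ g).mp hg
  have h7 : (N₁ : ℤ) ∣ g 1 1 - 1 := by
    rw [← ZMod.intCast_zmod_eq_zero_iff_dvd]
    push_cast
    rw [h6.2.1, sub_self]
  have h8 : chi3 (g 1 1) = 1 := by
    rw [chi3_congr ((by exact_mod_cast h3 : (3 : ℤ) ∣ (N₁ : ℤ)).trans h7), chi3_one]
  show ((chi3 (g 1 1) : ℤ) : ℂ) • u = _
  rw [h8, Int.cast_one, one_smul]

theorem toGLR_eq_eMat [NeZero D] :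
    ∃ (hn : (D : ℤ) ≠ 0) (hA : (!![1, 0; 0, (D : ℤ)] : Matrix (Fin 2) (Fin 2) ℤ).det = (D : ℤ)),
      toGLR hn !![1, 0; 0, (D : ℤ)] hA = eMat D := by
  refine ⟨by exact_mod_cast NeZero.ne D, by simp [Matrix.det_fin_two_of], ?_⟩
  rw [← Units.val_inj]
  ext i j
  fin_cases i <;> fin_cases j <;> simp [toGLR, Matrix.GeneralLinearGroup.mkOfDetNeZero, val_eMat]

/-- the form `h₁ = D (h ∣ diag(1, D))`, `h₁(D z) = h(z)`. -/
theorem exists_form [NeZero N] [NeZero N₁] [NeZero D] (hN : N = D * N₁) (h3 : 3 ∣ N₁)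
    (hD : ∀ q : ℕ, q.Prime → q ∣ D → q ∣ N₁) (h : CuspForm (Gamma1 N) 1) (hh : HasNeb N h)
    (hs : ∀ n, qCoeff h n ≠ 0 → D ∣ n) :
    ∃ h₁ : CuspForm (Gamma1 N₁) 1, ⇑h₁ = (D : ℂ) • (⇑h ∣[(1 : ℤ)] eMat D) ∧ HasNeb N₁ h₁ := by
  have hT := slash_e_T h hs
  have h1 := fun (g : SL(2, ℤ)) (hg : g ∈ Gamma0 N₁) => slash_e hN h3 hD hh hT hg
  have h4 : ∀ g ∈ Gamma0 N₁, ((D : ℂ) • (⇑h ∣[(1 : ℤ)] eMat D)) ∣[(1 : ℤ)] g =
      chC g • ((D : ℂ) • (⇑h ∣[(1 : ℤ)] eMat D)) := by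
    intro g hg
    rw [ModularForm.SL_smul_slash, h1 g hg, smul_comm]
  have h7 : ∀ c : OnePoint ℝ, IsCusp c ((Gamma1 N₁ : Subgroup SL(2, ℤ)) : Subgroup (GL (Fin 2) ℝ)) →
      c.IsZeroAt (⇑h ∣[(1 : ℤ)] eMat D) 1 := by
    intro c hc
    obtain ⟨hn, hA, he⟩ := toGLR_eq_eMat (D := D)
    have h6 : IsCusp c ((Gamma1 N : Subgroup SL(2, ℤ)) : Subgroup (GL (Fin 2) ℝ)) := by
      rw [Subgroup.IsArithmetic.isCusp_iff_isCusp_SL2Z] at hc ⊢
      exact hc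
    have h5 := isZeroAt_slash_toGLR h hn _ hA h6
    rw [he] at h5
    exact h5
  let h₀ : CuspForm (Gamma1 N₁) 1 :=
    { toFun := ⇑h ∣[(1 : ℤ)] eMat D
      slash_action_eq' := by
        rintro _ ⟨g, hg, rfl⟩
        exact slash_gamma1 h3 h1 hg
      holo' := (CuspFormClass.holo h).slash 1 (eMat D)
      zero_at_cusps' := fun {c} hc => h7 c hc }
  exact ⟨(D : ℂ) • h₀, rfl, h4⟩

/-- its coefficients -/
theorem qCoeff_form [NeZero N] [NeZero N₁] [NeZero D] (h : CuspForm (Gamma1 N) 1)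
    (hs : ∀ n, qCoeff h n ≠ 0 → D ∣ n) (h₁ : CuspForm (Gamma1 N₁) 1)
    (h1 : ⇑h₁ = (D : ℂ) • (⇑h ∣[(1 : ℤ)] eMat D)) (n : ℕ) : qCoeff h₁ n = qCoeff h (D * n) := by
  symm
  refine ModularFormClass.qExpansion_coeff_unique (f := h₁) one_pos (by simp)
    (c := fun n => qCoeff h (D * n)) (fun τ => ?_) n
  obtain ⟨τ', h2, h3⟩ := slash_eMat_apply (D := D) h τ
  have hD : (D : ℂ) ≠ 0 := Nat.cast_ne_zero.mpr (NeZero.ne D)
  have h4 : h₁ τ = h τ' := by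
    rw [h1, Pi.smul_apply, h3, smul_eq_mul, mul_inv_cancel_left₀ hD]
  rw [h4]
  have h5 := ModularForm.hasSum_qExpansion (f := h) one_pos (by simp) τ'
  have hinj : Function.Injective fun m : ℕ => D * m := fun a b hab =>
    Nat.eq_of_mul_eq_mul_left (Nat.pos_of_ne_zero (NeZero.ne D)) hab
  have h6 : ∀ m, m ∉ Set.range (fun m : ℕ => D * m) →
      (qExpansion 1 h).coeff m * Function.Periodic.qParam 1 τ' ^ m = 0 := by
    intro m hm
    have h7 : (qExpansion 1 h).coeff m = 0 := by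
      by_contra h8
      obtain ⟨t, rfl⟩ := hs m h8
      exact hm ⟨t, rfl⟩
    rw [h7, zero_mul]
  have h8 := (hinj.hasSum_iff h6).mpr h5
  have h9 : ((fun m : ℕ => (qExpansion 1 h).coeff m * Function.Periodic.qParam 1 τ' ^ m) ∘
      fun m : ℕ => D * m) = fun m : ℕ => qCoeff h (D * m) • Function.Periodic.qParam 1 τ ^ m := by
    funext m
    have h10 : Function.Periodic.qParam 1 τ' ^ D = Function.Periodic.qParam 1 τ := by
      rw [Function.Periodic.qParam, Function.Periodic.qParam, ← Complex.exp_nat_mul, h2]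
      congr 1
      push_cast
      field_simp
    rw [Function.comp_apply, pow_mul, h10, smul_eq_mul]
    rfl
  rw [h9] at h8
  exact h8

/-- **(Z3c)** -/
theorem lowerStmt : LowerStmt := by
  intro N N₁ D _ _ hN h3 hD f h hh hf hs
  have : NeZero D := ⟨by
    rintro rfl
    exact NeZero.ne N (by rw [hN, zero_mul])⟩
  obtain ⟨f₁, h1, h2⟩ := exists_lower hN h3 hD f h hh hs (W_val N) hf
  obtain ⟨h₁, h4, h5⟩ := exists_form hN h3 hD h hh hs
  exact ⟨f₁, h₁, h1, h2, h5, qCoeff_form h hs h₁ h4⟩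

end Fermat.Agent.Classic.Z3
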