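import Fermat.Agent.Classic.Level.Z3.Defs

/-!
# The Fricke involution in weight one

For `f : CuspForm (Gamma1 N) 1` with nebentypus `χ₋₃`, the function `h = f ∣ W_N`,
`W_N = (0, -1; N, 0)`, is again a cusp form of level `N` and nebentypus `χ₋₃`, `f = -N (h ∣ W_N)`, and
`T_ℓ h = χ₋₃(ℓ) b_ℓ h` whenever `T_ℓ f = b_ℓ f`, `ℓ ∤ N`.  (plan Z, Z3a, helper41)
-/

set_option autoImplicit false

noncomputable section

open CongruenceSubgroup Matrix.SpecialLinearGroup UpperHalfPlane EisensteinWeightOne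
open scoped MatrixGroups ModularForm Manifold

namespace Fermat.Agent.Classic.Fri

open Fermat.Agent.X1 Fermat.Agent.HeckePar ModularFormClass

/-- the Fricke matrix `(0, -1; N, 0)`. -/
def frW (N : ℕ) [NeZero N] : GL (Fin 2) ℝ :=
  Matrix.GeneralLinearGroup.mkOfDetNeZero !![0, -1; (N : ℝ), 0] (by
    rw [Matrix.det_fin_two_of]
    have h1 : (N : ℝ) ≠ 0 := by exact_mod_cast NeZero.ne N
    simpa using h1)

variable {N : ℕ} [NeZero N]

theorem val_frW : (frW N : Matrix (Fin 2) (Fin 2) ℝ) = !![0, -1; (N : ℝ), 0] := rfl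

theorem det_frW : ((frW N).det : ℝ) = N := by
  rw [Matrix.GeneralLinearGroup.val_det_apply, val_frW, Matrix.det_fin_two_of]
  ring

theorem N_pos : (0 : ℝ) < N := by exact_mod_cast Nat.pos_of_ne_zero (NeZero.ne N)

theorem det_frW_pos : 0 < ((frW N).det : ℝ) := by
  rw [det_frW]
  exact N_pos

theorem σ_frW : UpperHalfPlane.σ (frW N) = .refl ℝ ℂ := by
  rw [UpperHalfPlane.σ, if_pos det_frW_pos]

theorem smul_slash_frW (c : ℂ) (f : ℍ → ℂ) :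
    (c • f) ∣[(1 : ℤ)] frW N = c • (f ∣[(1 : ℤ)] frW N) := by
  rw [ModularForm.smul_slash, σ_frW]
  rfl

/-- `(f ∣ W) τ = (N τ)⁻¹ f(-1/(N τ))`. -/
theorem slash_frW_apply (f : ℍ → ℂ) (τ : ℍ) :
    (f ∣[(1 : ℤ)] frW N) τ = ((N : ℂ) * τ)⁻¹ * f (frW N • τ) := by
  rw [ModularForm.slash_apply, σ_frW]
  have h1 : UpperHalfPlane.denom (frW N) τ = (N : ℂ) * τ := by
    simp [UpperHalfPlane.denom, val_frW]
  rw [h1, sub_self, zpow_zero, mul_one, zpow_neg_one, mul_comm]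
  rfl

theorem coe_frW_smul (τ : ℍ) : ((frW N • τ : ℍ) : ℂ) = -1 / ((N : ℂ) * τ) := by
  rw [UpperHalfPlane.coe_smul_of_det_pos det_frW_pos]
  simp [UpperHalfPlane.num, UpperHalfPlane.denom, val_frW]

/-- `W² = -N`, weight one. -/
theorem slash_frW_frW (f : ℍ → ℂ) :
    (f ∣[(1 : ℤ)] frW N) ∣[(1 : ℤ)] frW N = (-(N : ℂ)⁻¹) • f := by
  have hN : (N : ℂ) ≠ 0 := by exact_mod_cast NeZero.ne N
  funext τ
  have hτ : (τ : ℂ) ≠ 0 := τ.ne_zero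
  rw [slash_frW_apply, slash_frW_apply]
  have h1 : frW N • frW N • τ = τ := by
    ext
    rw [coe_frW_smul, coe_frW_smul]
    field_simp
  rw [h1, coe_frW_smul]
  simp only [Pi.smul_apply, smul_eq_mul]
  field_simp

/-- an element of `SL(2, ℤ)` from its entries. -/
def mk4 (a b c d : ℤ) (h : a * d - b * c = 1) : SL(2, ℤ) :=
  ⟨!![a, b; c, d], by rw [Matrix.det_fin_two_of]; exact h⟩

theorem val_mk4 (a b c d : ℤ) (h : a * d - b * c = 1) :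
    ((mk4 a b c d h : SL(2, ℤ)) : Matrix (Fin 2) (Fin 2) ℤ) = !![a, b; c, d] := rfl

omit [NeZero N] in
theorem mk4_mem {a b c d : ℤ} {h : a * d - b * c = 1} (hc : (N : ℤ) ∣ c) :
    mk4 a b c d h ∈ Gamma0 N := by
  rw [Gamma0_mem]
  exact (ZMod.intCast_zmod_eq_zero_iff_dvd c N).mpr hc

theorem det4 (g : SL(2, ℤ)) : g 0 0 * g 1 1 - g 0 1 * g 1 0 = 1 := by
  have hd := g.det_coe
  rw [Matrix.det_fin_two] at hd
  exact hd

omit [NeZero N] in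
theorem dvd10 {g : SL(2, ℤ)} (hg : g ∈ Gamma0 N) : (N : ℤ) ∣ g 1 0 :=
  (ZMod.intCast_zmod_eq_zero_iff_dvd _ N).mp (Gamma0_mem.mp hg)

/-- the conjugate of an element of `Γ₀(N)` by `W`. -/
theorem exists_conj {g : SL(2, ℤ)} (hg : g ∈ Gamma0 N) :
    ∃ g' ∈ Gamma0 N, g' 1 1 = g 0 0 ∧ frW N * mapGL ℝ g = mapGL ℝ g' * frW N := by
  obtain ⟨c, hc⟩ := dvd10 hg
  have hd := det4 g
  have h1 : g 1 1 * g 0 0 - -c * (-(N : ℤ) * g 0 1) = 1 := by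
    rw [hc] at hd
    linear_combination hd
  refine ⟨mk4 (g 1 1) (-c) (-(N : ℤ) * g 0 1) (g 0 0) h1, mk4_mem ⟨-g 0 1, by ring⟩, rfl, ?_⟩
  have hc' : ((g 1 0 : ℤ) : ℝ) = (N : ℝ) * (c : ℝ) := by rw [hc]; push_cast; ring
  rw [← Units.val_inj, Units.val_mul, Units.val_mul, val_mapGL, val_mapGL, val_frW, val_mk4]
  ext i j
  fin_cases i <;> fin_cases j <;> simp [Matrix.mul_apply, Fin.sum_univ_two, hc'] <;> ring

/-- the nebentypus condition. -/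
def Neb (N : ℕ) (F : ℍ → ℂ) : Prop :=
  ∀ g ∈ Gamma0 N, F ∣[(1 : ℤ)] g = ((chi3 (g 1 1) : ℤ) : ℂ) • F

omit [NeZero N] in
theorem chi3_00 (h3 : 3 ∣ N) {g : SL(2, ℤ)} (hg : g ∈ Gamma0 N) :
    chi3 (g 0 0) = chi3 (g 1 1) := by
  have h1 := three_dvd_of_mem_Gamma0 h3 hg
  have h2 := chi3_mul_self (not_three_dvd_of_mem h1)
  have hd := det4 g
  have h4 : chi3 (g 0 0 * g 1 1) = 1 := by
    obtain ⟨c, hc⟩ := h1
    rw [hc] at hd
    have h5 : (3 : ℤ) ∣ g 0 0 * g 1 1 - 1 := ⟨g 0 1 * c, by linear_combination hd⟩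
    exact (chi3_congr h5).trans chi3_one
  rw [chi3_mul] at h4
  have h5 : chi3 (g 0 0) * (chi3 (g 1 1) * chi3 (g 1 1)) = chi3 (g 1 1) := by
    rw [← mul_assoc, h4, one_mul]
  rwa [h2, mul_one] at h5

theorem SL_slash' (F : ℍ → ℂ) (g : SL(2, ℤ)) : F ∣[(1 : ℤ)] g = F ∣[(1 : ℤ)] (mapGL ℝ g) := rfl

theorem neb_frW (h3 : 3 ∣ N) {F : ℍ → ℂ} (hF : Neb N F) : Neb N (F ∣[(1 : ℤ)] frW N) := by
  intro g hg
  obtain ⟨g', hg', h1, h2⟩ := exists_conj hg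
  rw [SL_slash', ← SlashAction.slash_mul, h2, SlashAction.slash_mul, ← SL_slash', hF g' hg',
    smul_slash_frW, h1, chi3_00 h3 hg]

omit [NeZero N] in
theorem chi3_11_of_Gamma1 (h3 : 3 ∣ N) {g : SL(2, ℤ)} (hg : g ∈ Gamma1 N) : chi3 (g 1 1) = 1 := by
  have h2 := (Gamma1_mem N g).mp hg
  have h4 : ((g 1 1 - 1 : ℤ) : ZMod N) = 0 := by
    push_cast
    rw [h2.2.1, sub_self]
  rw [ZMod.intCast_zmod_eq_zero_iff_dvd] at h4
  have h5 : (3 : ℤ) ∣ g 1 1 - 1 := (by exact_mod_cast h3 : (3 : ℤ) ∣ (N : ℤ)).trans h4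
  exact (chi3_congr h5).trans chi3_one

/-- the Fricke transform of a cusp form. -/
def frCusp (h3 : 3 ∣ N) (f : CuspForm (Gamma1 N) 1) (hf : Neb N f) : CuspForm (Gamma1 N) 1 where
  toFun := ⇑f ∣[(1 : ℤ)] frW N
  slash_action_eq' := by
    rintro _ ⟨g, hg, rfl⟩
    have h0 : g ∈ Gamma0 N := Gamma1_in_Gamma0 N hg
    have h1 := neb_frW h3 hf g h0
    have h2 : chi3 (g 1 1) = 1 := chi3_11_of_Gamma1 h3 hg
    rw [h2, Int.cast_one, one_smul] at h1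
    exact h1
  holo' := (CuspFormClass.holo f).slash 1 (frW N)
  zero_at_cusps' := by
    intro c hc
    have hN : ((N : ℤ)) ≠ 0 := by exact_mod_cast NeZero.ne N
    have hA : (!![0, -1; (N : ℤ), 0] : Matrix (Fin 2) (Fin 2) ℤ).det = N := by
      rw [Matrix.det_fin_two_of]
      ring
    have h1 : frW N = toGLR hN !![0, -1; (N : ℤ), 0] hA := by
      rw [← Units.val_inj, val_toGLR, val_frW]
      ext i j
      fin_cases i <;> fin_cases j <;> simp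
    have h2 := isZeroAt_slash_toGLR f hN _ hA hc
    rw [← h1] at h2
    exact h2

theorem coe_frCusp (h3 : 3 ∣ N) (f : CuspForm (Gamma1 N) 1) (hf : Neb N f) :
    ⇑(frCusp h3 f hf) = ⇑f ∣[(1 : ℤ)] frW N := rfl

/-! ### Hecke operators -/

/-- `T_ℓ` with the character `χ₋₃`, on functions. -/
def tChi (ℓ : ℕ) (F : ℍ → ℂ) : ℍ → ℂ :=
  ModularForm.heckeU 1 ℓ F + ((chi3 ℓ : ℤ) : ℂ) • (F ∣[(1 : ℤ)] ModularForm.heckeDiagMatrix ℓ)

/-- `(0, -1; N, 0) (1, 0; 0, ℓ) = (ℓ, 0; 0, 1) (0, -1; N, 0)`. -/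
theorem frW_mul_zero {ℓ : ℕ} (hℓ : ℓ ≠ 0) :
    frW N * ModularForm.heckeMatrix ℓ 0 = ModularForm.heckeDiagMatrix ℓ * frW N := by
  rw [← Units.val_inj, Units.val_mul, Units.val_mul, ModularForm.val_heckeMatrix hℓ,
    ModularForm.val_heckeDiagMatrix hℓ, val_frW]
  ext i j
  fin_cases i <;> fin_cases j <;> simp [Matrix.mul_apply, Fin.sum_univ_two]

theorem frW_mul_diag {ℓ : ℕ} (hℓ : ℓ ≠ 0) :
    frW N * ModularForm.heckeDiagMatrix ℓ = ModularForm.heckeMatrix ℓ 0 * frW N := by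
  rw [← Units.val_inj, Units.val_mul, Units.val_mul, ModularForm.val_heckeMatrix hℓ,
    ModularForm.val_heckeDiagMatrix hℓ, val_frW]
  ext i j
  fin_cases i <;> fin_cases j <;> simp [Matrix.mul_apply, Fin.sum_univ_two]
  ring

/-- `W (1, j; 0, ℓ) = γ (1, j'; 0, ℓ) W` with `γ ∈ Γ₀(N)`, `γ 0 0 = ℓ`, if `N j j' ≡ -1`. -/
theorem frW_mul_hecke {ℓ : ℕ} (hℓ : ℓ ≠ 0) {j j' : ℕ} (h : (ℓ : ℤ) ∣ 1 + N * j * j') :
    ∃ g ∈ Gamma0 N, g 0 0 = ℓ ∧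
      frW N * ModularForm.heckeMatrix ℓ j = mapGL ℝ g * (ModularForm.heckeMatrix ℓ j' * frW N) := by
  obtain ⟨d, hd⟩ := h
  have h1 : (ℓ : ℤ) * d - -(j' : ℤ) * (-(N : ℤ) * j) = 1 := by linear_combination -hd
  refine ⟨mk4 ℓ (-j') (-(N : ℤ) * j) d h1, mk4_mem ⟨-j, by ring⟩, rfl, ?_⟩
  have hd' : (1 : ℝ) + N * j * j' = ℓ * d := by exact_mod_cast hd
  rw [← Units.val_inj, Units.val_mul, Units.val_mul, Units.val_mul, ModularForm.val_heckeMatrix hℓ,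
    ModularForm.val_heckeMatrix hℓ, val_mapGL, val_frW, val_mk4]
  ext i k
  fin_cases i <;> fin_cases k <;> simp [Matrix.mul_apply, Fin.sum_univ_two] <;>
    first
    | linear_combination hd'
    | linear_combination -hd'
    | linear_combination (N : ℝ) * hd'
    | linear_combination -(N : ℝ) * hd'
    | ring

/-- the involution `j ↦ -(N j)⁻¹` of `ZMod ℓ`. -/
def invol {ℓ : ℕ} [Fact ℓ.Prime] (hN : ¬ ℓ ∣ N) : Equiv.Perm (ZMod ℓ) where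
  toFun j := -((N : ZMod ℓ) * j)⁻¹
  invFun j := -((N : ZMod ℓ) * j)⁻¹
  left_inv j := by
    have h1 : (N : ZMod ℓ) ≠ 0 := fun h => hN ((ZMod.natCast_eq_zero_iff N ℓ).mp h)
    field_simp
  right_inv j := by
    have h1 : (N : ZMod ℓ) ≠ 0 := fun h => hN ((ZMod.natCast_eq_zero_iff N ℓ).mp h)
    field_simp

theorem slash_frW_hecke (h3 : 3 ∣ N) {F : ℍ → ℂ} (hF : Neb N F) {ℓ : ℕ} [hℓ : Fact ℓ.Prime]
    (hN : ¬ ℓ ∣ N) {j : ZMod ℓ} (hj : j ≠ 0) :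
    (F ∣[(1 : ℤ)] frW N) ∣[(1 : ℤ)] ModularForm.heckeMatrix ℓ j.val =
      ((chi3 ℓ : ℤ) : ℂ) • ((F ∣[(1 : ℤ)] ModularForm.heckeMatrix ℓ (invol hN j).val)
        ∣[(1 : ℤ)] frW N) := by
  have h1 : (N : ZMod ℓ) ≠ 0 := fun h => hN ((ZMod.natCast_eq_zero_iff N ℓ).mp h)
  have hd : (ℓ : ℤ) ∣ 1 + N * (j.val : ℕ) * ((invol hN j).val : ℕ) := by
    rw [← ZMod.intCast_zmod_eq_zero_iff_dvd]
    push_cast
    rw [ZMod.natCast_zmod_val, ZMod.natCast_zmod_val]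
    show 1 + (N : ZMod ℓ) * j * (-((N : ZMod ℓ) * j)⁻¹) = 0
    field_simp
    ring
  obtain ⟨g, hg, h0, h2⟩ := frW_mul_hecke hℓ.out.ne_zero hd
  rw [← SlashAction.slash_mul, h2, SlashAction.slash_mul, ← SL_slash', hF g hg,
    ModularForm.smul_slash, SlashAction.slash_mul, ← chi3_00 h3 hg, h0]
  congr 1
  rw [UpperHalfPlane.σ, if_pos]
  · rfl
  · rw [map_mul, Units.val_mul]
    exact mul_pos (ModularForm.det_heckeMatrix_pos _ _) det_frW_pos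

/-- **`T_ℓ (F ∣ W) = χ(ℓ) (T_ℓ F) ∣ W`.** -/
theorem tChi_frW (h3 : 3 ∣ N) {F : ℍ → ℂ} (hF : Neb N F) {ℓ : ℕ} [hℓ : Fact ℓ.Prime]
    (hN : ¬ ℓ ∣ N) :
    tChi ℓ (F ∣[(1 : ℤ)] frW N) = ((chi3 ℓ : ℤ) : ℂ) • (tChi ℓ F ∣[(1 : ℤ)] frW N) := by
  classical
  have hl0 := hℓ.out.ne_zero
  have hc : ((chi3 ℓ : ℤ) : ℂ) * ((chi3 ℓ : ℤ) : ℂ) = 1 := by
    have h4 : ¬ (3 : ℤ) ∣ (ℓ : ℤ) := by
      intro h
      have h5 : 3 ∣ ℓ := by exact_mod_cast h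
      have h6 := (Nat.prime_dvd_prime_iff_eq Nat.prime_three hℓ.out).mp h5
      exact hN (h6 ▸ h3)
    exact_mod_cast chi3_mul_self h4
  set G : ℍ → ℂ := F ∣[(1 : ℤ)] frW N with hG
  -- the `U` part
  have hU : ModularForm.heckeU 1 ℓ G =
      (F ∣[(1 : ℤ)] ModularForm.heckeDiagMatrix ℓ) ∣[(1 : ℤ)] frW N +
        ((chi3 ℓ : ℤ) : ℂ) • (ModularForm.heckeU 1 ℓ F ∣[(1 : ℤ)] frW N) -
        ((chi3 ℓ : ℤ) : ℂ) • ((F ∣[(1 : ℤ)] ModularForm.heckeMatrix ℓ 0) ∣[(1 : ℤ)] frW N) := by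
    rw [ModularForm.heckeU_def, ModularForm.heckeU_def, sum_range_eq_sum_zmod,
      sum_range_eq_sum_zmod]
    have h1 : ∀ j : ZMod ℓ, G ∣[(1 : ℤ)] ModularForm.heckeMatrix ℓ j.val =
        ((chi3 ℓ : ℤ) : ℂ) • ((F ∣[(1 : ℤ)] ModularForm.heckeMatrix ℓ (invol hN j).val)
          ∣[(1 : ℤ)] frW N) + if j = 0 then
            ((F ∣[(1 : ℤ)] ModularForm.heckeDiagMatrix ℓ) ∣[(1 : ℤ)] frW N -
              ((chi3 ℓ : ℤ) : ℂ) • ((F ∣[(1 : ℤ)] ModularForm.heckeMatrix ℓ 0) ∣[(1 : ℤ)] frW N))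
            else 0 := by
      intro j
      by_cases hj : j = 0
      · subst hj
        have h2 : invol hN (0 : ZMod ℓ) = 0 := by
          show -((N : ZMod ℓ) * 0)⁻¹ = 0
          rw [mul_zero, inv_zero, neg_zero]
        rw [h2, if_pos rfl, ZMod.val_zero, hG, ← SlashAction.slash_mul, frW_mul_zero hl0,
          SlashAction.slash_mul]
        abel
      · rw [if_neg hj, add_zero]
        exact slash_frW_hecke h3 hF hN hj
    rw [Finset.sum_congr rfl fun j _ => h1 j, Finset.sum_add_distrib, ← Finset.smul_sum,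
      Finset.sum_ite_eq' Finset.univ (0 : ZMod ℓ), if_pos (Finset.mem_univ _),
      Equiv.sum_comp (invol hN) fun j : ZMod ℓ =>
        (F ∣[(1 : ℤ)] ModularForm.heckeMatrix ℓ j.val) ∣[(1 : ℤ)] frW N,
      SlashAction.sum_slash]
    abel
  have hD : G ∣[(1 : ℤ)] ModularForm.heckeDiagMatrix ℓ =
      (F ∣[(1 : ℤ)] ModularForm.heckeMatrix ℓ 0) ∣[(1 : ℤ)] frW N := by
    rw [hG, ← SlashAction.slash_mul, frW_mul_diag hl0, SlashAction.slash_mul]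
  rw [tChi, hU, hD, tChi, SlashAction.add_slash, smul_slash_frW, smul_add, smul_smul, hc, one_smul]
  abel

/-! ### The statement of `Z3/Defs.lean` -/

theorem W_eq : Z3.W N = frW N := rfl

omit [NeZero N] in
theorem coe_pUnit' {p : ℕ} [hp : Fact p.Prime] (hpN : ¬ p ∣ N) :
    ((pUnit N p : (ZMod N)ˣ) : ZMod N) = (p : ZMod N) :=
  coe_pUnit ((Nat.Prime.coprime_iff_not_dvd hp.out).mpr hpN)

/-- `T_p` of the library is `tChi`. -/
theorem coe_tCusp_eq (h3 : 3 ∣ N) (f : CuspForm (Gamma1 N) 1) (hf : Neb N f) {p : ℕ}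
    [hp : Fact p.Prime] (hpN : ¬ p ∣ N) : ⇑(tCusp N (Gamma1 N) 1 p f) = tChi p f := by
  have h1 : chi3 ((diaMat N (pUnit N p)) 1 1) = chi3 p := by
    refine chi3_congr ?_
    have h2 : (((diaMat N (pUnit N p)) 1 1 - (p : ℤ) : ℤ) : ZMod N) = 0 := by
      push_cast
      rw [diaMat_11, coe_pUnit' hpN, sub_self]
    rw [ZMod.intCast_zmod_eq_zero_iff_dvd] at h2
    exact (by exact_mod_cast h3 : (3 : ℤ) ∣ (N : ℤ)).trans h2
  rw [coe_tCusp, slashSum_hecke 1 p hpN, hf _ (diaMat_mem _), h1, tChi, ModularForm.smul_slash,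
    ModularForm.σ_heckeDiagMatrix]
  rfl

omit [NeZero N] in
/-- if `3 ∤ N` only `0` has nebentypus `χ₋₃`. -/
theorem eq_zero_of_neb (h3 : ¬ 3 ∣ N) {F : ℍ → ℂ} (hF : Neb N F) : F = 0 := by
  have hc : IsCoprime (3 : ℤ) (N : ℤ) := by
    have h1 := (Nat.Prime.coprime_iff_not_dvd Nat.prime_three).mpr h3
    exact_mod_cast Nat.isCoprime_iff_coprime.mpr h1
  obtain ⟨u, v, huv⟩ := hc
  have h1 : u * 3 - -v * (N : ℤ) = 1 := by linear_combination huv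
  have h2 := hF (mk4 u (-v) N 3 h1) (mk4_mem (dvd_refl _))
  have h4 : chi3 ((mk4 u (-v) N 3 h1) 1 1) = 0 := by
    rw [chi3_eq_zero_iff]
    exact dvd_refl _
  rw [h4, Int.cast_zero, zero_smul] at h2
  have h5 : (F ∣[(1 : ℤ)] (mk4 u (-v) N 3 h1)) ∣[(1 : ℤ)] (mk4 u (-v) N 3 h1)⁻¹ = F := by
    rw [← SlashAction.slash_mul, mul_inv_cancel, SlashAction.slash_one]
  rw [← h5, h2, SlashAction.zero_slash]

/-- **The Fricke involution.** -/
theorem fricke : Z3.FrickeStmt := by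
  intro N _ f hf0
  have hf : Neb N f := hf0
  by_cases h3 : 3 ∣ N
  · refine ⟨frCusp h3 f hf, rfl, neb_frW h3 hf, ?_, ?_⟩
    · have hN : (N : ℂ) ≠ 0 := by exact_mod_cast NeZero.ne N
      rw [coe_frCusp, W_eq, slash_frW_frW, smul_smul]
      have h1 : -(N : ℂ) * -(N : ℂ)⁻¹ = 1 := by field_simp
      rw [h1, one_smul]
    · intro p _ hpN t ht
      have h1 : (⇑(tCusp N (Gamma1 N) 1 p f) : ℍ → ℂ) = ⇑(t • f) := by rw [ht]
      rw [coe_tCusp_eq h3 f hf hpN, FunLike.coe_smul] at h1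
      refine DFunLike.coe_injective ?_
      rw [coe_tCusp_eq h3 (frCusp h3 f hf) (neb_frW h3 hf) hpN, coe_frCusp, tChi_frW h3 hf hpN, h1,
        smul_slash_frW, smul_smul, chi3_natCast, FunLike.coe_smul, coe_frCusp]
  · have h1 : (⇑f : ℍ → ℂ) = 0 := eq_zero_of_neb h3 hf
    have h0 : f = 0 := DFunLike.coe_injective h1
    subst h0
    refine ⟨0, ?_, hf, ?_, ?_⟩
    · rw [FunLike.coe_zero, SlashAction.zero_slash]
    · rw [FunLike.coe_zero, SlashAction.zero_slash, smul_zero]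
    · intro p _ _ t _
      rw [map_zero, smul_zero]

end Fermat.Agent.Classic.Fri
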