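import Fermat.Agent.Classic.Level.Z3.Main
import Fermat.Agent.Classic.Level.Z3.Fricke

/-!
# The functional equation of a weight one cusp form on `Γ₁(N)` (block Z3)

From Mathlib's `L`-function of a cusp form.
-/

set_option autoImplicit false

noncomputable section

open UpperHalfPlane hiding I
open CongruenceSubgroup Function EisensteinWeightOne Complex
open scoped MatrixGroups ModularForm ComplexConjugate

namespace Fermat.Agent.Classic.Z3

open ModularFormClass

variable {N : ℕ} [NeZero N]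

theorem hasSum_L1 (f : CuspForm (Gamma1 N) 1) {s : ℂ} (hs : 2 < s.re) :
    HasSum (fun n : ℕ => qCoeff ⇑f n / (n : ℂ) ^ s) (ModularForm.L one_pos f s) := by
  have h := CuspForm.hasSum_L (Γ := ((Gamma1 N : Subgroup SL(2, ℤ)) : Subgroup (GL (Fin 2) ℝ)))
    (k := 1) f (hk := one_pos) (s := s) (by rw [Int.cast_one]; linarith)
  rw [strictWidthInfty_Gamma1] at h
  simpa [qCoeff] using h

theorem lsum (f : CuspForm (Gamma1 N) 1) {s : ℂ} (hs : 2 < s.re) :
    LSeriesSummable (qCoeff ⇑f) s ∧ LSeries (qCoeff ⇑f) s = ModularForm.L one_pos f s := by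
  have h := hasSum_L1 f hs
  have e : LSeries.term (qCoeff ⇑f) s = fun n : ℕ => qCoeff ⇑f n / (n : ℂ) ^ s := by
    ext n
    rcases eq_or_ne n 0 with rfl | hn
    · rw [LSeries.term_zero]
      have hs0 : s ≠ 0 := by
        rintro rfl
        rw [Complex.zero_re] at hs
        linarith
      rw [Nat.cast_zero, Complex.zero_cpow hs0, div_zero]
    · rw [LSeries.term_of_ne_zero hn]
  constructor
  · rw [LSeriesSummable, e]
    exact h.summable
  · rw [LSeries, e]
    exact h.tsum_eq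

theorem coe_ofComplex_I {t : ℝ} (ht : 0 < t) : ((ofComplex (I * (t : ℂ)) : ℍ) : ℂ) = I * t := by
  have h1 : 0 < (I * (t : ℂ)).im := by simpa using ht
  rw [ofComplex_apply_of_im_pos h1]

theorem ofComplex_W {t : ℝ} (ht : 0 < t) :
    Fri.frW N • ofComplex (I * (t : ℂ)) = ofComplex (I * (((N : ℝ) * t)⁻¹ : ℝ)) := by
  have hN0 : (0 : ℝ) < N := by exact_mod_cast Nat.pos_of_ne_zero (NeZero.ne N)
  have hN : (N : ℂ) ≠ 0 := Nat.cast_ne_zero.mpr (NeZero.ne N)
  have hu : 0 < ((N : ℝ) * t)⁻¹ := inv_pos.mpr (mul_pos hN0 ht)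
  have ht' : (t : ℂ) ≠ 0 := by exact_mod_cast ht.ne'
  ext
  rw [Fri.coe_frW_smul, coe_ofComplex_I ht, coe_ofComplex_I hu]
  push_cast
  field_simp
  rw [I_sq]

/-- `f(it) = (i/t) h(i/(Nt))`. -/
theorem apply_I {f h : ℍ → ℂ} (hh : h = f ∣[(1 : ℤ)] W N) {t : ℝ} (ht : 0 < t) :
    f (ofComplex (I * (t : ℂ))) =
      (t : ℂ)⁻¹ * (I * h (ofComplex (I * (((N : ℝ) * t)⁻¹ : ℝ)))) := by
  have hN0 : (0 : ℝ) < N := by exact_mod_cast Nat.pos_of_ne_zero (NeZero.ne N)
  have hN : (N : ℂ) ≠ 0 := Nat.cast_ne_zero.mpr (NeZero.ne N)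
  have ht' : (t : ℂ) ≠ 0 := by exact_mod_cast ht.ne'
  have hu : 0 < ((N : ℝ) * t)⁻¹ := inv_pos.mpr (mul_pos hN0 ht)
  have e1 : h = f ∣[(1 : ℤ)] Fri.frW N := hh
  have e2 : ((N : ℝ) * ((N : ℝ) * t)⁻¹)⁻¹ = t := by
    field_simp
  rw [e1, Fri.slash_frW_apply, ofComplex_W hu, e2, coe_ofComplex_I hu]
  push_cast
  field_simp

theorem mellin_fricke {f h : ℍ → ℂ} (hh : h = f ∣[(1 : ℤ)] W N) (s : ℂ) :
    mellin (fun t : ℝ => f (ofComplex (I * (t : ℂ)))) s =
      I * (N : ℂ) ^ (1 - s) * mellin (fun t : ℝ => h (ofComplex (I * (t : ℂ)))) (1 - s) := by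
  have hN0 : (0 : ℝ) < N := by exact_mod_cast Nat.pos_of_ne_zero (NeZero.ne N)
  set G : ℝ → ℂ := fun t => h (ofComplex (I * (t : ℂ))) with hG
  have e1 : mellin (fun t : ℝ => f (ofComplex (I * (t : ℂ)))) s =
      mellin (fun t : ℝ => (t : ℂ) ^ (-1 : ℂ) • (I • (fun u => G u⁻¹) ((N : ℝ) * t))) s := by
    refine MeasureTheory.setIntegral_congr_fun measurableSet_Ioi fun t ht => ?_
    simp only
    rw [apply_I hh ht, hG, Complex.cpow_neg_one]
    rfl
  have e3 := mellin_comp_mul_left (fun u => G u⁻¹) (s + -1) hN0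
  rw [mellin_comp_inv] at e3
  rw [e1, mellin_cpow_smul, mellin_const_smul, e3]
  have e2 : -(s + -1) = 1 - s := by ring
  rw [e2, smul_eq_mul, smul_eq_mul, ← mul_assoc]
  norm_cast

/-- **The functional equation.** -/
theorem frickeFE : FrickeFEStmt := by
  intro N _ f h hh
  have hN : (N : ℂ) ≠ 0 := Nat.cast_ne_zero.mpr (NeZero.ne N)
  have hfe : ∀ s : ℂ, ModularForm.Λ one_pos f s =
      I * (N : ℂ) ^ (1 - s) * ModularForm.Λ one_pos h (1 - s) := by
    intro s
    rw [CuspForm.Λ_eq_mellin, CuspForm.Λ_eq_mellin]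
    exact mellin_fricke hh s
  refine ⟨0, I * (N : ℂ) ^ (1 / 2 : ℂ),
    fun s => (N : ℂ) ^ (s / 2) * (2 * ModularForm.Λ one_pos f s), 2, ?_, ?_,
    by norm_num, fun s hs => ?_⟩
  · refine mul_ne_zero I_ne_zero ?_
    rw [Ne, Complex.cpow_eq_zero_iff]
    exact fun h => hN h.1
  · have h1 : Differentiable ℂ (ModularForm.Λ one_pos f) := CuspForm.differentiable_Λ one_pos f
    have h2 : Differentiable ℂ fun s : ℂ => (N : ℂ) ^ (s / 2) := by
      intro s
      exact ((differentiableAt_id.div_const 2).const_cpow (Or.inl hN))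
    exact h2.mul (h1.const_mul 2)
  · obtain ⟨hf1, hf2⟩ := lsum f hs
    obtain ⟨hh1, hh2⟩ := lsum h hs
    have hG : Gammaℂ s ≠ 0 := by
      rw [Gammaℂ_def]
      refine mul_ne_zero (mul_ne_zero two_ne_zero ?_) (Gamma_ne_zero_of_re_pos (by linarith))
      rw [Ne, Complex.cpow_eq_zero_iff]
      exact fun h => (mul_ne_zero two_ne_zero (ofReal_ne_zero.mpr Real.pi_ne_zero)) h.1
    refine ⟨hf1, hh1, ?_, ?_⟩
    · rw [hf2, ModularForm.L]
      field_simp
    · simp only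
      rw [hh2, ModularForm.L, hfe (1 - s)]
      have e1 : (1 : ℂ) - (1 - s) = s := by ring
      have e2 : (N : ℂ) ^ ((1 - s) / 2) * (N : ℂ) ^ s =
          (N : ℂ) ^ (1 / 2 : ℂ) * (N : ℂ) ^ (s / 2) := by
        rw [← Complex.cpow_add _ _ hN, ← Complex.cpow_add _ _ hN]
        congr 1
        ring
      rw [e1]
      field_simp
      linear_combination (ModularForm.Λ one_pos h s) * e2

end Fermat.Agent.Classic.Z3
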