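import Fermat.Agent.Classic.Level.Z3.Main
import Fermat.Agent.Classic.Level.Z3.MellinFE
import Fermat.Agent.Classic.Level.Z3.Deplete
import Fermat.Agent.Classic.Level.Z3.Conj
import Fermat.Agent.Classic.Level.Z3.Lower
import Fermat.Agent.Classic.Level.UqLower

/-!
# Block Z3, final form
-/

set_option autoImplicit false

noncomputable section

open CongruenceSubgroup UpperHalfPlane Function EisensteinWeightOne Complex
open scoped MatrixGroups ModularForm ComplexConjugate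

namespace Fermat.Agent.Classic.Z3

open Fermat.Agent.X1 Fermat.Agent.HeckePar ModularFormClass FLT.ExplicitLift

local notation "Γℚ" => (AlgebraicClosure ℚ ≃ₐ[ℚ] AlgebraicClosure ℚ)

theorem uqStmt : UqStmt := by
  intro N q _ _ hq hqN h3 h hh
  have h1 : q ∣ N / q := by
    obtain ⟨m, rfl⟩ := hqN
    exact ⟨m, by rw [pow_two, mul_assoc, Nat.mul_div_cancel_left _ hq.out.pos]⟩
  have h2 : N = q * (N / q) :=
    (Nat.mul_div_cancel' ((dvd_pow_self q two_ne_zero).trans hqN)).symm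
  obtain ⟨g, hg, hgc⟩ := UqLow.exists_lower (M := N / q) hq.out h1 h3 h2 h hh
  exact ⟨g, hg, hgc⟩

variable {ρ : Γℚ →* GL (Fin 2) (ZMod 3)} {Ψ : GL (Fin 2) (ZMod 3) →* GL (Fin 2) (ℤ√(-2))}

/-- The pack of a form with coefficients `ι (b n)`, traces of `ρ`, depleted. -/
theorem pack_of' (hρ : Continuous ρ)
    (hdet : ∀ σ, Matrix.GeneralLinearGroup.det (ρ σ) = WeierstrassCurve.modThreeCyclotomicChar σ)
    (hΨ : ∀ g, Matrix.GeneralLinearGroup.map red (Ψ g) = g) {N : ℕ} [NeZero N]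
    {ι : ℤ√(-2) →+* ℂ} {b : ℕ → ℤ√(-2)} {f : CuspForm (Gamma1 N) 1}
    (hsq : ∀ q : ℕ, q.Prime → q ∣ N → q ^ 2 ∣ N)
    (hb : FormalHecke.IsEigensystem
      (fun ℓ => if ℓ ∣ N then 0 else ((chiNegThree ℓ : ℤ) : ℤ√(-2))) b)
    (hsupp : ∀ n : ℕ, ¬ n.Coprime N → b n = 0) (hf : ∀ n : ℕ, qCoeff ⇑f n = ι (b n))
    (htr : ∀ p : ℕ, p.Prime → ¬ p ∣ N → ∀ A : ValuationSubring (AlgebraicClosure ℚ),
      A.LiesOverPrime p → ∀ σ : Γℚ, A.IsFrobeniusAt σ p →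
      b p = ((Ψ (ρ σ) : GL (Fin 2) (ℤ√(-2))) : Matrix (Fin 2) (Fin 2) (ℤ√(-2))).trace) :
    ∃ h : CuspForm (Gamma1 N) 1, Pack ρ Ψ N ι b f h :=
  pack_of Fri.fricke frickeFE conjStmt hρ hdet hΨ hsq hb hsupp hf htr

/-- **The form of S47, at a level divisible by `R`.** -/
theorem exists_pack' (hρ : Continuous ρ)
    (hdet : ∀ σ, Matrix.GeneralLinearGroup.det (ρ σ) = WeierstrassCurve.modThreeCyclotomicChar σ)
    (hΨ : ∀ g, Matrix.GeneralLinearGroup.map red (Ψ g) = g)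
    (hC : LT.End.Concl47 ρ Ψ) {R : ℕ} (hR : R ≠ 0) :
    ∃ (N : ℕ) (_ : NeZero N) (ι : ℤ√(-2) →+* ℂ) (b : ℕ → ℤ√(-2)) (f h : CuspForm (Gamma1 N) 1),
      R ∣ N ∧ Pack ρ Ψ N ι b f h :=
  exists_pack Fri.fricke frickeFE depleteStmt conjStmt hρ hdet hΨ hC hR

/-- **Lowering the level**, the same `f` and `b`. -/
theorem Pack.lower' (hρ : Continuous ρ)
    (hdet : ∀ σ, Matrix.GeneralLinearGroup.det (ρ σ) = WeierstrassCurve.modThreeCyclotomicChar σ)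
    (hΨ : ∀ g, Matrix.GeneralLinearGroup.map red (Ψ g) = g) {N N₁ D : ℕ} [NeZero N]
    [NeZero N₁] {ι : ℤ√(-2) →+* ℂ} {b : ℕ → ℤ√(-2)} {f h : CuspForm (Gamma1 N) 1}
    (hP : Pack ρ Ψ N ι b f h) (hN : N = D * N₁) (hN₁ : ∀ q : ℕ, q.Prime → q ∣ N → q ^ 2 ∣ N₁)
    (hs : ∀ n, qCoeff ⇑h n ≠ 0 → D ∣ n) :
    ∃ f₁ h₁ : CuspForm (Gamma1 N₁) 1, ⇑f₁ = ⇑f ∧ Pack ρ Ψ N₁ ι b f₁ h₁ :=
  hP.lower Fri.fricke frickeFE conjStmt lowerStmt hρ hdet hΨ hN hN₁ hs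

/-- **`U_q h`** for `q² ∣ N`. -/
theorem Pack.exists_uq' {N q : ℕ} [NeZero N] [NeZero (N / q)] [Fact q.Prime]
    {ι : ℤ√(-2) →+* ℂ} {b : ℕ → ℤ√(-2)} {f h : CuspForm (Gamma1 N) 1}
    (hP : Pack ρ Ψ N ι b f h) (hqN : q ^ 2 ∣ N) (h3 : 3 ∣ N / q) :
    ∃ g : CuspForm (Gamma1 (N / q)) 1, HasNeb (N / q) g ∧
      (∀ n, qCoeff ⇑g n = qCoeff ⇑h (q * n)) ∧
      ∀ p : ℕ, p.Prime → ¬ p ∣ N / q → ∀ n : ℕ,
        qCoeff ⇑g (p * n) + ((chiNegThree p : ℤ) : ℂ) * (if p ∣ n then qCoeff ⇑g (n / p) else 0) =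
          conj (ι (b p)) * qCoeff ⇑g n :=
  hP.exists_uq uqStmt hqN h3

end Fermat.Agent.Classic.Z3

end
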